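import Fermat.Agent.S25.H191.RepOfCharts
import Fermat.Agent.S25.H625.ChartsOfAlg

/-!
# Row S27, block DIM, leaf COVER (helper191)

Any scheme `D` representing the degree-zero rigidified Picard functor of `(c, ε)` is covered by
the affine charts `Spec (R i)` of ANY chart family (scheme-theoretic `ChartFamily` or algebraic
`AlgChartFamily`): the classifying morphisms `j i : Spec (R i) ⟶ D.P` of the chart bundles are
open immersions over `Spec k` and jointly surjective.

Consequences: relative dimension (and smoothness) of `D.toBase` can be read off on the chart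
rings.

* `exists_cover_of_universal`: abstract form (presheaf on schemes with affine charts and a
  universal element).
* `exists_cover_of_chartFamily`: for a `ChartFamily c ε`.
* `chartFamilyOfAlg`, `exists_cover_of_algChartFamily`: for an `AlgChartFamily` through the
  dictionary (the dictionary statements are hypotheses; all are theorems on main).
* `smoothOfRelativeDimension_of_charts`, `smooth_chart_of_smooth`.
-/

set_option autoImplicit false
set_option linter.style.haveILetI false
universe w u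
open CategoryTheory CategoryTheory.Limits AlgebraicGeometry AlgebraicGeometry.RelPicard
  NeronModelInfra GoodReductionJacobian Opposite
open scoped TensorProduct

namespace Fermat.Agent.S27.H191

open Fermat.Agent.S25 Fermat.Agent.S25.H191

noncomputable section

/-! ## Abstract form -/

/-- A presheaf on schemes which is a Zariski sheaf, has affine charts, and has a universal
element over `J'`: the classifying maps of the charts form an open cover of `J'`. -/
theorem exists_cover_of_universal {G : Scheme.{u}ᵒᵖ ⥤ Type w}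
    (hG : Presieve.IsSheaf Scheme.zariskiTopology G) (C : AbsCharts G)
    {J' : Scheme.{u}} (u' : G.obj (op J'))
    (huniv' : ∀ (T : Scheme.{u}) (x : G.obj (op T)), ∃! g : T ⟶ J', G.map g.op u' = x) :
    ∃ j : ∀ i, C.X i ⟶ J', (∀ i, IsOpenImmersion (j i)) ∧
      (∀ p : J', ∃ i, p ∈ Set.range (j i)) ∧ ∀ i, G.map (j i).op u' = C.u i := by
  obtain ⟨J, univ, j, hj, hsurj, hju, huniv⟩ := exists_representing hG C
  obtain ⟨a, ha, -⟩ := huniv J' u'
  obtain ⟨b, hb, -⟩ := huniv' J univ
  have hab : a ≫ b = 𝟙 J' := by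
    obtain ⟨g, -, hg⟩ := huniv' J' u'
    have h1 : G.map (a ≫ b).op u' = u' := by
      rw [map_comp_apply', hb, ha]
    have h2 : G.map (𝟙 J').op u' = u' := map_id_apply' u'
    exact (hg _ h1).trans (hg _ h2).symm
  have hba : b ≫ a = 𝟙 J := by
    obtain ⟨g, -, hg⟩ := huniv J univ
    have h1 : G.map (b ≫ a).op univ = univ := by
      rw [map_comp_apply', ha, hb]
    have h2 : G.map (𝟙 J).op univ = univ := map_id_apply' univ
    exact (hg _ h1).trans (hg _ h2).symm
  haveI : IsIso b := ⟨a, hba, hab⟩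
  refine ⟨fun i => j i ≫ b, fun i => ?_, fun p => ?_, fun i => ?_⟩
  · haveI := hj i
    infer_instance
  · obtain ⟨i, y, hy⟩ := hsurj (a p)
    refine ⟨i, y, ?_⟩
    have h1 : (j i ≫ b) y = b (j i y) := rfl
    rw [h1, hy]
    have h2 : b (a p) = (a ≫ b) p := rfl
    rw [h2, hab]
    rfl
  · rw [map_comp_apply', hb, hju]

/-! ## The Picard presheaf of a representing object -/

section Rep

variable {k : Type u} [Field k] {C : Scheme.{u}} {c : C ⟶ Spec (CommRingCat.of k)}
  {ε : SchemeHomOver (𝟙 (Spec (CommRingCat.of k))) c}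
  {D : RelativePic0Designation k c}

/-- The class of the Poincaré bundle in the absolute Picard presheaf. -/
def poincareElt (hrep : RepresentsRelSubPic c ε (algEquivZeroCut c ε) D) :
    (Gt c ε).obj (op D.P) :=
  Gt.mk D.toBase hrep.poincare hrep.poincare_mem

theorem map_poincareElt (hrep : RepresentsRelSubPic c ε (algEquivZeroCut c ε) D)
    {T : Scheme.{u}} {t : T ⟶ Spec (CommRingCat.of k)} (g : SchemeHomOver t D.toBase) :
    (Gt c ε).map g.1.op (poincareElt hrep) =
      Gt.mk t (hrep.poincare.pullbackAlong g)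
        (FibrewiseAlgEquivZero.pullback g hrep.poincare_mem) :=
  Gt.map_mk' g hrep.poincare hrep.poincare_mem

/-- The Poincaré class is a universal element of the absolute Picard presheaf. -/
theorem poincareElt_universal (hrep : RepresentsRelSubPic c ε (algEquivZeroCut c ε) D)
    (T : Scheme.{u}) (x : (Gt c ε).obj (op T)) :
    ∃! g : T ⟶ D.P, (Gt c ε).map g.op (poincareElt hrep) = x := by
  obtain ⟨t, M, d, rfl⟩ := Gt.exists_rep x
  refine ⟨(hrep.classify t M d).1, ?_, ?_⟩
  · change (Gt c ε).map (hrep.classify t M d).1.op (poincareElt hrep) = _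
    rw [map_poincareElt, Gt.mk_eq_mk_iff]
    exact hrep.classify_spec t M d
  · intro g hg
    change (Gt c ε).map g.op (poincareElt hrep) = _ at hg
    have hb : g ≫ D.toBase = t := by
      have h1 : (Gt c ε).map g.op (poincareElt hrep) =
          Gt.mk (g ≫ D.toBase) (hrep.poincare.pullbackAlong ⟨g, rfl⟩)
            (FibrewiseAlgEquivZero.pullback _ hrep.poincare_mem) := rfl
      rw [h1] at hg
      exact Gt.base_eq_of_mk_eq hg
    have h2 := map_poincareElt hrep (⟨g, hb⟩ : SchemeHomOver t D.toBase)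
    rw [hg, Gt.mk_eq_mk_iff] at h2
    have h3 := hrep.classify_unique t M d ⟨g, hb⟩ (riso_symm h2)
    exact congrArg Subtype.val h3

/-- **COVER** for a scheme-theoretic chart family: every representing object of the
degree-zero rigidified Picard functor is covered by the charts. -/
theorem exists_cover_of_chartFamily (CF : ChartFamily c ε)
    (hGl : Stmt.SheafGlue c ε) (hS : Stmt.SheafSep c ε) (hL : Stmt.LocalP c ε)
    (hrep : RepresentsRelSubPic c ε (algEquivZeroCut c ε) D) :
    ∃ j : ∀ i, SchemeHomOver (specStr k (CF.R i)) D.toBase,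
      (∀ i, IsOpenImmersion (j i).1) ∧ (∀ p : D.P, ∃ i, p ∈ Set.range (j i).1) ∧
      ∀ i, RIso (hrep.poincare.pullbackAlong (j i)) (CF.bundle i) := by
  have hG := isSheaf_Gt hS hGl hL
  obtain ⟨j, hj, hsurj, hju⟩ :=
    exists_cover_of_universal hG (absCharts CF) (poincareElt hrep) (poincareElt_universal hrep)
  have hb : ∀ i : CF.ι, j i ≫ D.toBase = specStr k (CF.R i) := fun i => by
    have h1 : (Gt c ε).map (j i).op (poincareElt hrep) =
        Gt.mk (j i ≫ D.toBase) (hrep.poincare.pullbackAlong ⟨j i, rfl⟩)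
          (FibrewiseAlgEquivZero.pullback _ hrep.poincare_mem) := rfl
    have h2 := hju i
    rw [h1] at h2
    exact Gt.base_eq_of_mk_eq h2
  refine ⟨fun i : CF.ι => ⟨j i, hb i⟩, hj, hsurj, fun i : CF.ι => ?_⟩
  have h2 := map_poincareElt hrep (⟨j i, hb i⟩ : SchemeHomOver (specStr k (CF.R i)) D.toBase)
  have h3 : (Gt c ε).map (j i).op (poincareElt hrep) = chartElt CF i := hju i
  have h4 := h3.symm.trans h2
  exact riso_symm ((Gt.mk_eq_mk_iff _ _ _ _).1 h4)

end Rep

/-! ## Algebraic chart families -/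

section Alg

variable {k : Type u} [Field k] {C : Scheme.{u}} {c : C ⟶ Spec (CommRingCat.of k)}
  {ε : SchemeHomOver (𝟙 (Spec (CommRingCat.of k))) c}

/-- `Corr` is invariant under isomorphism of gluing data. -/
theorem corr_of_isIso (Ch : ChartOf c ε) (A : Type u) [CommRing A] [Algebra k A]
    (L : (pullback c (specStr k A)).Modules) {G G' : CurveGD k Ch.B₀ Ch.B₁ Ch.B₀₁ A}
    (h : Corr Ch A L G) (hi : G.IsIso G') : Corr Ch A L G' := by
  obtain ⟨e₀, e₁, e₀₁, h₀, h₁, h₀₁, hr₀, hr₁⟩ := h
  obtain ⟨i⟩ := hi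
  refine ⟨e₀.trans i.e₀.toAddEquiv, e₁.trans i.e₁.toAddEquiv, e₀₁.trans i.e₀₁.toAddEquiv,
    ⟨fun a s => ?_, fun f s => ?_⟩, ⟨fun a s => ?_, fun f s => ?_⟩,
    ⟨fun a s => ?_, fun f s => ?_⟩, fun s => ?_, fun s => ?_⟩
  · change i.e₀ (e₀ _) = _ • i.e₀ (e₀ s)
    rw [h₀.1, map_smul]
  · change i.e₀ (e₀ _) = _ • i.e₀ (e₀ s)
    rw [h₀.2, map_smul]
  · change i.e₁ (e₁ _) = _ • i.e₁ (e₁ s)
    rw [h₁.1, map_smul]
  · change i.e₁ (e₁ _) = _ • i.e₁ (e₁ s)
    rw [h₁.2, map_smul]
  · change i.e₀₁ (e₀₁ _) = _ • i.e₀₁ (e₀₁ s)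
    rw [h₀₁.1, map_smul]
  · change i.e₀₁ (e₀₁ _) = _ • i.e₀₁ (e₀₁ s)
    rw [h₀₁.2, map_smul]
  · change i.e₀₁ (e₀₁ _) = G'.r₀ (i.e₀ (e₀ s))
    rw [hr₀, i.comm₀]
  · change i.e₀₁ (e₀₁ _) = G'.r₁ (i.e₁ (e₁ s))
    rw [hr₁, i.comm₁]

variable (Ch : ChartOf c ε) (hSec : Stmt.DictSections Ch) (hGlue : Stmt.DictGlue Ch)
  (hIso : Stmt.DictIso Ch) (hBC : Stmt.DictBC Ch) (hDeg : Stmt.DictDeg Ch)
  (hEx : Stmt.AlgBCExists Ch) (F : AlgChartFamily k Ch.B₀ Ch.B₁ Ch.B₀₁ Ch.e)

/-- The bundle of the `i`-th algebraic chart (through `DictGlue`). -/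
def algBundle (i : F.ι) : RigidifiedLineBundle c ε (specStr k (F.R i)) :=
  (hGlue (F.R i) (F.datum i) (F.rig i)).choose

theorem corr_algBundle (i : F.ι) : Corr Ch (F.R i) (algBundle Ch hGlue F i).L (F.datum i) :=
  (hGlue (F.R i) (F.datum i) (F.rig i)).choose_spec

/-- The scheme-theoretic chart family of an algebraic chart family, WITH THE SAME index set
and THE SAME chart rings (definitional). -/
def chartFamilyOfAlg : ChartFamily c ε where
  ι := F.ι
  R := F.R
  finiteType := F.finiteType
  bundle := algBundle Ch hGlue F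
  deg0 := fun i =>
    (hDeg (F.R i) (algBundle Ch hGlue F i) (F.datum i) (corr_algBundle Ch hGlue F i)).2 (F.deg0 i)
  inj := by
    intro i A _ _ φ ψ hφψ
    obtain ⟨Gφ, hGφ⟩ := hEx (F.R i) A φ (F.datum i)
    obtain ⟨Gψ, hGψ⟩ := hEx (F.R i) A ψ (F.datum i)
    have h1 := hBC (F.R i) A φ (algBundle Ch hGlue F i) (F.datum i) Gφ
      (corr_algBundle Ch hGlue F i) hGφ
    have h2 := hBC (F.R i) A ψ (algBundle Ch hGlue F i) (F.datum i) Gψ
      (corr_algBundle Ch hGlue F i) hGψ
    exact F.inj i A φ ψ Gφ Gψ hGφ hGψ ((hIso A _ _ Gφ Gψ h1 h2).1 hφψ)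
  locus := by
    intro A _ _ M hM
    obtain ⟨G, hG, hrig⟩ := hSec A M
    obtain ⟨I, hI, hloc⟩ := F.locus A G hrig ((hDeg A M G hG).1 hM)
    refine ⟨I, hI, fun i A' _ _ ψ => ?_⟩
    obtain ⟨G', hG'⟩ := hEx A A' ψ G
    have hMG' := hBC A A' ψ M G G' hG hG'
    rw [← hloc i A' ψ G' hG']
    constructor
    · rintro ⟨φ, hφ⟩
      obtain ⟨G'', hG''⟩ := hEx (F.R i) A' φ (F.datum i)
      have h1 := hBC (F.R i) A' φ (algBundle Ch hGlue F i) (F.datum i) G''
        (corr_algBundle Ch hGlue F i) hG''
      exact ⟨φ, H625.isBC_of_isIso_right hG'' ((hIso A' _ _ G'' G' h1 hMG').1 hφ)⟩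
    · rintro ⟨φ, hφ⟩
      have h1 := hBC (F.R i) A' φ (algBundle Ch hGlue F i) (F.datum i) G'
        (corr_algBundle Ch hGlue F i) hφ
      exact ⟨φ, (hIso A' _ _ G' G' h1 hMG').2 (H625.isIso_refl' G')⟩

variable {D : RelativePic0Designation k c}

include hSec hGlue hIso hBC hDeg hEx in
/-- **COVER** for an algebraic chart family: every representing object `D` of the degree-zero
rigidified Picard functor is covered by open immersions `j i : Spec (F.R i) ⟶ D.P` over
`Spec k`, and the Poincaré bundle restricts on the `i`-th chart to (the bundle of) the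
universal gluing datum `F.datum i`. -/
theorem exists_cover_of_algChartFamily
    (hGl : Stmt.SheafGlue c ε) (hS : Stmt.SheafSep c ε) (hL : Stmt.LocalP c ε)
    (hrep : RepresentsRelSubPic c ε (algEquivZeroCut c ε) D) :
    ∃ j : ∀ i, SchemeHomOver (specStr k (F.R i)) D.toBase,
      (∀ i, IsOpenImmersion (j i).1) ∧ (∀ p : D.P, ∃ i, p ∈ Set.range (j i).1) ∧
      ∀ i, Corr Ch (F.R i) (hrep.poincare.pullbackAlong (j i)).L (F.datum i) := by
  obtain ⟨j, hj, hsurj, hjb⟩ := exists_cover_of_chartFamily
    (chartFamilyOfAlg Ch hSec hGlue hIso hBC hDeg hEx F) hGl hS hL hrep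
  let j' : ∀ i : F.ι, SchemeHomOver (specStr k (F.R i)) D.toBase := j
  refine ⟨j', hj, hsurj, fun i : F.ι => ?_⟩
  obtain ⟨G', hG', -⟩ := hSec (F.R i) (hrep.poincare.pullbackAlong (j' i))
  have h1 : RIso (hrep.poincare.pullbackAlong (j' i)) (algBundle Ch hGlue F i) := hjb i
  have h2 := (hIso (F.R i) _ _ G' (F.datum i) hG' (corr_algBundle Ch hGlue F i)).1 h1
  exact corr_of_isIso Ch (F.R i) _ hG' h2

end Alg

/-! ## Smoothness and relative dimension through the cover -/

section Smooth

/-- Relative dimension can be checked on a jointly surjective family of open immersions. -/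
theorem smoothOfRelativeDimension_of_jointlySurjective {J S : Scheme.{u}} {ι : Type u}
    {X : ι → Scheme.{u}} (j : ∀ i, X i ⟶ J) (hj : ∀ i, IsOpenImmersion (j i))
    (hsurj : ∀ p : J, ∃ i, p ∈ Set.range (j i)) (f : J ⟶ S) (g : ℕ)
    (h : ∀ i, SmoothOfRelativeDimension g (j i ≫ f)) : SmoothOfRelativeDimension g f := by
  have : IsZariskiLocalAtSource (@SmoothOfRelativeDimension.{u} g) :=
    HasRingHomProperty.instIsZariskiLocalAtSource (P := @SmoothOfRelativeDimension g)
      (Q := RingHom.Locally (RingHom.IsStandardSmoothOfRelativeDimension g))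
  exact IsZariskiLocalAtSource.of_openCover (P := @SmoothOfRelativeDimension g)
    (coverOfJointlySurjective j hj hsurj) h

variable {k : Type u} [Field k] {C : Scheme.{u}} {c : C ⟶ Spec (CommRingCat.of k)}
  {ε : SchemeHomOver (𝟙 (Spec (CommRingCat.of k))) c}
  {D : RelativePic0Designation k c}

theorem smoothOfRelativeDimension_specStr_iff (R : Type u) [CommRing R] [Algebra k R] (g : ℕ) :
    SmoothOfRelativeDimension g (specStr k R) ↔
      RingHom.Locally (RingHom.IsStandardSmoothOfRelativeDimension g) (algebraMap k R) :=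
  HasRingHomProperty.Spec_iff (P := @SmoothOfRelativeDimension g)
    (Q := RingHom.Locally (RingHom.IsStandardSmoothOfRelativeDimension g))

theorem smooth_specStr_iff (R : Type u) [CommRing R] [Algebra k R] :
    Smooth (specStr k R) ↔ Algebra.Smooth k R :=
  (HasRingHomProperty.Spec_iff (P := @Smooth) (Q := RingHom.Smooth)).trans
    RingHom.smooth_algebraMap

/-- **DIM through charts** (scheme-theoretic chart family): if every chart is smooth of
relative dimension `g` over `k`, so is every representing object. -/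
theorem smoothOfRelativeDimension_of_chartFamily (CF : ChartFamily c ε)
    (hGl : Stmt.SheafGlue c ε) (hS : Stmt.SheafSep c ε) (hL : Stmt.LocalP c ε)
    (hrep : RepresentsRelSubPic c ε (algEquivZeroCut c ε) D) (g : ℕ)
    (hg : ∀ i, SmoothOfRelativeDimension g (specStr k (CF.R i))) :
    SmoothOfRelativeDimension g D.toBase := by
  obtain ⟨j, hj, hsurj, -⟩ := exists_cover_of_chartFamily CF hGl hS hL hrep
  refine smoothOfRelativeDimension_of_jointlySurjective (fun i => (j i).1) hj hsurj D.toBase g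
    fun i => ?_
  have h := hg i
  rwa [← (j i).2] at h

/-- Every chart of a smooth representing object is smooth. -/
theorem smooth_chart_of_smooth (CF : ChartFamily c ε)
    (hGl : Stmt.SheafGlue c ε) (hS : Stmt.SheafSep c ε) (hL : Stmt.LocalP c ε)
    (hrep : RepresentsRelSubPic c ε (algEquivZeroCut c ε) D) (hsm : Smooth D.toBase)
    (i : CF.ι) : Algebra.Smooth k (CF.R i) := by
  obtain ⟨j, hj, -, -⟩ := exists_cover_of_chartFamily CF hGl hS hL hrep
  rw [← smooth_specStr_iff, ← (j i).2]
  haveI := hj i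
  infer_instance

variable (Ch : ChartOf c ε) (hSec : Stmt.DictSections Ch) (hGlue : Stmt.DictGlue Ch)
  (hIso : Stmt.DictIso Ch) (hBC : Stmt.DictBC Ch) (hDeg : Stmt.DictDeg Ch)
  (hEx : Stmt.AlgBCExists Ch) (F : AlgChartFamily k Ch.B₀ Ch.B₁ Ch.B₀₁ Ch.e)

include hSec hGlue hIso hBC hDeg hEx in
/-- **DIM through charts** (algebraic chart family, ring form): if every chart ring `F.R i`
is locally standard smooth of relative dimension `g` over `k`, then every representing object
of the degree-zero rigidified Picard functor is smooth of relative dimension `g`. -/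
theorem smoothOfRelativeDimension_of_algChartFamily
    (hGl : Stmt.SheafGlue c ε) (hS : Stmt.SheafSep c ε) (hL : Stmt.LocalP c ε)
    (hrep : RepresentsRelSubPic c ε (algEquivZeroCut c ε) D) (g : ℕ)
    (hg : ∀ i, RingHom.Locally (RingHom.IsStandardSmoothOfRelativeDimension g)
      (algebraMap k (F.R i))) :
    SmoothOfRelativeDimension g D.toBase :=
  smoothOfRelativeDimension_of_chartFamily (chartFamilyOfAlg Ch hSec hGlue hIso hBC hDeg hEx F)
    hGl hS hL hrep g fun i : F.ι => (smoothOfRelativeDimension_specStr_iff (F.R i) g).2 (hg i)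

include hSec hGlue hIso hBC hDeg hEx in
/-- Every chart ring of an algebraic chart family is smooth over `k` as soon as some
representing object is smooth. -/
theorem smooth_algChart_of_smooth
    (hGl : Stmt.SheafGlue c ε) (hS : Stmt.SheafSep c ε) (hL : Stmt.LocalP c ε)
    (hrep : RepresentsRelSubPic c ε (algEquivZeroCut c ε) D) (hsm : Smooth D.toBase)
    (i : F.ι) : Algebra.Smooth k (F.R i) :=
  smooth_chart_of_smooth (chartFamilyOfAlg Ch hSec hGlue hIso hBC hDeg hEx F)
    hGl hS hL hrep hsm i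

end Smooth

end

end Fermat.Agent.S27.H191
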