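import Fermat.Agent.S27.H191.CoverFinal
import Fermat.Agent.S25.H11.AlgCharts3
import Fermat.Agent.S25.H611.ACStage3
import Fermat.Agent.S25.H446.ACStage2
import Fermat.Agent.S25.H911.ACCover

/-!
# Row S27, block DIM, leaf COVER for the S25 atlas (helper191)

The chart atlas of row S25 (`H11.atlasOfLeaves`, charts `Spec (chartRing i)`,
`chartRing i = (Rβ)_f`, index set `H11.AtlasIndex` = good numeric chart indices), as an
algebraic chart family `s25Atlas Ch`, and the open cover of ANY representing object `D` of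
the degree-zero rigidified Picard functor by these charts.

* `s25Atlas Ch : AlgChartFamily …` with `(s25Atlas Ch).ι = H11.AtlasIndex …`,
  `(s25Atlas Ch).R i = H11.chartRing i.1`, `(s25Atlas Ch).datum i = H11.atlasDatum i` (all `rfl`);
* `exists_cover_atlas`, `exists_chart_at_zero`, `smoothOfRelativeDimension_of_chartRing`,
  `smooth_chartRing`.
-/

set_option autoImplicit false
universe u
open CategoryTheory CategoryTheory.Limits AlgebraicGeometry AlgebraicGeometry.RelPicard
  NeronModelInfra GoodReductionJacobian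
open scoped TensorProduct

namespace Fermat.Agent.S27.H191

open Fermat.Agent.S25

noncomputable section

variable {k : Type u} [Field k] [IsAlgClosed k] {C : Scheme.{u}}
  {c : C ⟶ Spec (CommRingCat.of k)}
  {ε : SchemeHomOver (𝟙 (Spec (CommRingCat.of k))) c}

/-- The chart atlas of row S25 as an algebraic chart family. -/
def s25Atlas (Ch : ChartOf c ε) : AlgChartFamily k Ch.B₀ Ch.B₁ Ch.B₀₁ Ch.e :=
  (H11.atlasOfLeaves Ch.isCurveChart H791.leaf_stage0 H791.leaf_stage1 H446.leaf_stage2
    (H611.stage3_of_stage2 H446.leaf_stage2)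
    (H11.stage4_of_point H791.leaf_pointBC H431.leaf_pointUnique)
    H791.leaf_pointBC H431.leaf_pointUnique (H11.leaf_pointIso k Ch.B₀ Ch.B₁ Ch.B₀₁)
    (H911.cover_of_stage2 H446.leaf_stage2)).toAlgChartFamily
    (fun _ _ _ _ _ _ φ G => H265.curveGD_exists_isBC φ G)
    (fun _ _ _ _ _ _ _ _ _ _ _ _ _ _ h h' => H265.curveGD_isBC_comp h h')
    (fun _ _ _ _ _ _ _ _ _ h hr => H265.rigidifiable_of_isBC h hr)

theorem s25Atlas_ι (Ch : ChartOf c ε) :
    (s25Atlas Ch).ι = H11.AtlasIndex Ch.B₀₁ Ch.x Ch.y Ch.e := rfl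

theorem s25Atlas_R (Ch : ChartOf c ε) (i : H11.AtlasIndex Ch.B₀₁ Ch.x Ch.y Ch.e) :
    (s25Atlas Ch).R i = H11.chartRing i.1 := rfl

theorem s25Atlas_datum (Ch : ChartOf c ε) (i : H11.AtlasIndex Ch.B₀₁ Ch.x Ch.y Ch.e) :
    (s25Atlas Ch).datum i = H11.atlasDatum i := rfl

variable [IsProper c] [SmoothOfRelativeDimension 1 c] [IsIntegral C]
  {D : RelativePic0Designation k c}

/-- **COVER by the S25 atlas**: every representing object `D` is covered by open immersions
`j i : Spec (chartRing i) ⟶ D.P` over `Spec k`, `i` running over the good numeric chart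
indices, and the Poincaré bundle restricts to the universal datum `atlasDatum i`. -/
theorem exists_cover_atlas (Ch : ChartOf c ε)
    (hrep : RepresentsRelSubPic c ε (algEquivZeroCut c ε) D) :
    ∃ j : ∀ i : H11.AtlasIndex Ch.B₀₁ Ch.x Ch.y Ch.e,
        SchemeHomOver (specStr k (H11.chartRing i.1)) D.toBase,
      (∀ i : H11.AtlasIndex Ch.B₀₁ Ch.x Ch.y Ch.e, IsOpenImmersion (j i).1) ∧
      (∀ p : D.P, ∃ i : H11.AtlasIndex Ch.B₀₁ Ch.x Ch.y Ch.e, p ∈ Set.range (j i).1) ∧
      ∀ i : H11.AtlasIndex Ch.B₀₁ Ch.x Ch.y Ch.e,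
        Corr Ch (H11.chartRing i.1) (hrep.poincare.pullbackAlong (j i)).L
          (H11.atlasDatum i) :=
  exists_cover (D := D) Ch (s25Atlas Ch) hrep

/-- **DIM through the S25 atlas**: if the chart ring of every good numeric chart index is
locally standard smooth of relative dimension `g` over `k`, every representing object is
smooth of relative dimension `g`. -/
theorem smoothOfRelativeDimension_of_chartRing (Ch : ChartOf c ε)
    (hrep : RepresentsRelSubPic c ε (algEquivZeroCut c ε) D) (g : ℕ)
    (hg : ∀ i : H11.AtlasIndex Ch.B₀₁ Ch.x Ch.y Ch.e,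
      RingHom.Locally (RingHom.IsStandardSmoothOfRelativeDimension g)
        (algebraMap k (H11.chartRing i.1))) :
    SmoothOfRelativeDimension g D.toBase :=
  smoothOfRelativeDimension_of_charts (D := D) Ch (s25Atlas Ch) hrep g hg

/-- The chart rings of the S25 atlas are smooth over `k`. -/
theorem smooth_chartRing (Ch : ChartOf c ε)
    (hrep : RepresentsRelSubPic c ε (algEquivZeroCut c ε) D) (hsm : Smooth D.toBase)
    (i : H11.AtlasIndex Ch.B₀₁ Ch.x Ch.y Ch.e) : Algebra.Smooth k (H11.chartRing i.1) :=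
  smooth_chart (D := D) Ch (s25Atlas Ch) hrep hsm i

end

end Fermat.Agent.S27.H191
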