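import Fermat.Agent.S27.H191.Cover
import Fermat.Agent.S25.H146.SheafSep
import Fermat.Agent.S25.H146.SheafGlue
import Fermat.Agent.S25.H805.LocalP
import Fermat.Agent.S25.H566.DictUnit
import Fermat.Agent.S25.H687.DDFinal
import Fermat.Agent.S25.H265.GDCCurve
import Fermat.Agent.S25.H265.GDCDeg
import Fermat.Agent.S25.H265.GDCBaseChange
import Fermat.Agent.S25.H550.DegConst
import Fermat.Agent.S25.H986.DictIsoMpr
import Fermat.Agent.S25.H505.DictBC
import Fermat.Agent.S25.H505.DictSections
import Fermat.Agent.S25.H505.DictGlue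
import Fermat.Agent.S25.H567.AbelFamily
import Fermat.Agent.S25.H747.AlgAbelTop
import Fermat.Agent.S25.H266.AbLocRig
import Fermat.Agent.S25.H927.AbAlgAA2
import Fermat.Agent.S25.H206.SurjFinal

/-!
# Row S27, block DIM, leaf COVER: unconditional form (helper191)

The dictionary statements and Zariski descent are theorems of row S25 (on main); plugging
them into `Cover.lean` gives, for an algebraically closed field `k`, a proper smooth integral
pointed curve `(c, ε)` with a two-chart presentation `Ch`, ANY algebraic chart family `F` and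
ANY representing object `D`:

* `dictAll`: all six dictionary statements for `Ch` (also useful for PTS-DICT / GRP);
* `exists_cover`: open immersions `j i : Spec (F.R i) ⟶ D.P` over `k`, jointly surjective,
  with `Corr Ch (F.R i) (j i)^*Poincaré (F.datum i)`;
* `smoothOfRelativeDimension_of_charts`, `smooth_chart`.
-/

set_option autoImplicit false
universe u
open CategoryTheory CategoryTheory.Limits AlgebraicGeometry AlgebraicGeometry.RelPicard
  NeronModelInfra GoodReductionJacobian
open scoped TensorProduct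

namespace Fermat.Agent.S27.H191

open Fermat.Agent.S25

variable {k : Type u} [Field k] [IsAlgClosed k] {C : Scheme.{u}}
  {c : C ⟶ Spec (CommRingCat.of k)} [IsProper c] [SmoothOfRelativeDimension 1 c] [IsIntegral C]
  {ε : SchemeHomOver (𝟙 (Spec (CommRingCat.of k))) c}

/-- The S25 dictionary for a two-chart presentation: all six statements (theorems of row S25,
collected from `Assembly/Final.lean`). -/
theorem dictAll (Ch : ChartOf c ε) :
    Stmt.DictSections Ch ∧ Stmt.DictGlue Ch ∧ Stmt.DictIso Ch ∧ Stmt.DictBC Ch ∧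
      Stmt.DictDeg Ch ∧ Stmt.AlgBCExists Ch := by
  have hSheafGlue : Stmt.SheafGlue c ε := H146.sheafGlue k c ε
  have hAA2 : H747.StmtAA2 k Ch.B₀ Ch.B₁ Ch.B₀₁ := H927.stmtAA2
  have hAA6 : H747.StmtAA6 k Ch.B₀ Ch.B₁ Ch.B₀₁ := H206.stmtAA6 k Ch.B₀ Ch.B₁ Ch.B₀₁
  have hGlue : Stmt.DictGlue Ch := H505.dictGlue Ch
  have hSec : Stmt.DictSections Ch := H505.dictSections Ch
  have hUnit : H687.DictUnit Ch := fun A _ _ => H566.dictUnit Ch A
  have hIso : Stmt.DictIso Ch := H986.dictIso Ch
  have hBC : Stmt.DictBC Ch := H505.dictBC Ch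
  have hEx : Stmt.AlgBCExists Ch := H265.algBCExists Ch
  have hId : H687.BCId k Ch.B₀ Ch.B₁ Ch.B₀₁ := fun A _ _ G => H265.curveGD_isBC_id G
  have hComp : H687.BCComp k Ch.B₀ Ch.B₁ Ch.B₀₁ :=
    fun A A' A'' _ _ _ _ _ _ φ ψ G G' G'' h h' => H265.curveGD_isBC_comp h h'
  have hDegIso : H687.DegIso k Ch.B₀ Ch.B₁ Ch.B₀₁ :=
    fun K _ _ G G' h => H265.degree_eq_of_isIso h
  have hDegConst : H687.DegConst k Ch.B₀ Ch.B₁ Ch.B₀₁ := H550.degConst
  have hAA4 : H747.StmtAA4 k Ch.B₀ Ch.B₁ Ch.B₀₁ := fun x y e hC g A _ _ P 𝔭 h𝔭 =>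
    H266.abelDatum_locRig_of_isBC e g A P (fun A' _ _ ψ => hAA2 x y e hC g A A' ψ P) 𝔭 h𝔭
  obtain ⟨𝔉⟩ := H747.algAbel_of_leaves hAA2 hAA4 hAA6 Ch.x Ch.y Ch.e Ch.isCurveChart
  have hAbelAlg : H687.AbelAlg Ch :=
    H567.abelAlg Ch 𝔉 hSheafGlue (H146.sheafSep k c ε) hGlue hIso hBC
      (fun A _ _ => H566.dictUnit Ch A)
  have hDeg : Stmt.DictDeg Ch :=
    H687.dictDeg_final Ch hSec hIso hBC hEx hUnit hId hComp hDegIso hDegConst hAbelAlg
  exact ⟨hSec, hGlue, hIso, hBC, hDeg, hEx⟩

variable {D : RelativePic0Designation k c}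

/-- **COVER** (unconditional): every representing object `D` of the degree-zero rigidified
Picard functor is covered by the charts of any algebraic chart family. -/
theorem exists_cover (Ch : ChartOf c ε) (F : AlgChartFamily k Ch.B₀ Ch.B₁ Ch.B₀₁ Ch.e)
    (hrep : RepresentsRelSubPic c ε (algEquivZeroCut c ε) D) :
    ∃ j : ∀ i, SchemeHomOver (specStr k (F.R i)) D.toBase,
      (∀ i, IsOpenImmersion (j i).1) ∧ (∀ p : D.P, ∃ i, p ∈ Set.range (j i).1) ∧
      ∀ i, Corr Ch (F.R i) (hrep.poincare.pullbackAlong (j i)).L (F.datum i) := by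
  obtain ⟨hSec, hGlue, hIso, hBC, hDeg, hEx⟩ := dictAll Ch
  exact exists_cover_of_algChartFamily Ch hSec hGlue hIso hBC hDeg hEx F
    (H146.sheafGlue k c ε) (H146.sheafSep k c ε) (H805.localP c ε) hrep

/-- **DIM through charts** (unconditional): if every chart ring of an algebraic chart family
is locally standard smooth of relative dimension `g` over `k`, every representing object is
smooth of relative dimension `g`. -/
theorem smoothOfRelativeDimension_of_charts (Ch : ChartOf c ε)
    (F : AlgChartFamily k Ch.B₀ Ch.B₁ Ch.B₀₁ Ch.e)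
    (hrep : RepresentsRelSubPic c ε (algEquivZeroCut c ε) D) (g : ℕ)
    (hg : ∀ i, RingHom.Locally (RingHom.IsStandardSmoothOfRelativeDimension g)
      (algebraMap k (F.R i))) :
    SmoothOfRelativeDimension g D.toBase := by
  obtain ⟨hSec, hGlue, hIso, hBC, hDeg, hEx⟩ := dictAll Ch
  exact smoothOfRelativeDimension_of_algChartFamily Ch hSec hGlue hIso hBC hDeg hEx F
    (H146.sheafGlue k c ε) (H146.sheafSep k c ε) (H805.localP c ε) hrep g hg

/-- Every chart ring of an algebraic chart family is smooth over `k` (unconditional, given a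
smooth representing object, e.g. the one of S25). -/
theorem smooth_chart (Ch : ChartOf c ε) (F : AlgChartFamily k Ch.B₀ Ch.B₁ Ch.B₀₁ Ch.e)
    (hrep : RepresentsRelSubPic c ε (algEquivZeroCut c ε) D) (hsm : Smooth D.toBase)
    (i : F.ι) : Algebra.Smooth k (F.R i) := by
  obtain ⟨hSec, hGlue, hIso, hBC, hDeg, hEx⟩ := dictAll Ch
  exact smooth_algChart_of_smooth Ch hSec hGlue hIso hBC hDeg hEx F
    (H146.sheafGlue k c ε) (H146.sheafSep k c ε) (H805.localP c ε) hrep hsm i

end Fermat.Agent.S27.H191
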